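/-
S25 helper (helper626), block GLUE, leaf G4 (part 1): sectionwise toolkit for `𝒪_X`-modules and
the scalar-multiplication endomorphism `smulHom M r : M ⟶ M` for `r ∈ Γ(X, ⊤)`.
-/
import Mathlib

set_option autoImplicit false

universe u

noncomputable section

open CategoryTheory AlgebraicGeometry TopologicalSpace Opposite

namespace Fermat.Agent.S25.H626

variable {X : Scheme.{u}}

/-- Restriction of sections of a module. -/
def res (M : X.Modules) {U V : X.Opens} (h : V ≤ U) (s : Γ(M, U)) : Γ(M, V) :=
  M.presheaf.map (homOfLE h).op s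

/-- Restriction of sections of the structure sheaf. -/
def resO {U V : X.Opens} (h : V ≤ U) (r : Γ(X, U)) : Γ(X, V) :=
  X.presheaf.map (homOfLE h).op r

section Basic

variable (M N : X.Modules)

@[simp] theorem res_id {U : X.Opens} (s : Γ(M, U)) : res M (le_refl U) s = s := by
  simp [res]

theorem res_res {U V W : X.Opens} (h : V ≤ U) (h' : W ≤ V) (s : Γ(M, U)) :
    res M h' (res M h s) = res M (h'.trans h) s := by
  simp only [res, ← ConcreteCategory.comp_apply, ← Functor.map_comp]
  rfl

@[simp] theorem resO_id {U : X.Opens} (r : Γ(X, U)) : resO (le_refl U) r = r := by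
  simp [resO]

theorem resO_resO {U V W : X.Opens} (h : V ≤ U) (h' : W ≤ V) (r : Γ(X, U)) :
    resO h' (resO h r) = resO (h'.trans h) r := by
  simp only [resO, ← ConcreteCategory.comp_apply, ← Functor.map_comp]
  rfl

theorem res_smul {U V : X.Opens} (h : V ≤ U) (r : Γ(X, U)) (s : Γ(M, U)) :
    res M h (r • s) = resO h r • res M h s :=
  Scheme.Modules.map_smul M (homOfLE h) r s

theorem res_add {U V : X.Opens} (h : V ≤ U) (s t : Γ(M, U)) :
    res M h (s + t) = res M h s + res M h t :=
  map_add _ s t

theorem resO_mul {U V : X.Opens} (h : V ≤ U) (r r' : Γ(X, U)) :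
    resO h (r * r') = resO h r * resO h r' :=
  map_mul _ r r'

theorem resO_one {U V : X.Opens} (h : V ≤ U) : resO h (1 : Γ(X, U)) = 1 :=
  map_one _

variable {M N}

theorem app_res (φ : M ⟶ N) {U V : X.Opens} (h : V ≤ U) (s : Γ(M, U)) :
    φ.app V (res M h s) = res N h (φ.app U s) := by
  have := φ.mapPresheaf.naturality (homOfLE h).op
  exact congr($this s)

end Basic

/-! ### Scalar multiplication by a global function -/

section SmulHom

variable (M : X.Modules)

/-- The underlying morphism of abelian presheaves of `smulHom`. -/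
def smulPresheafHom (r : Γ(X, ⊤)) : M.presheaf ⟶ M.presheaf where
  app U := M.smul (resO (le_top : U.unop ≤ ⊤) r)
  naturality U V f := by
    have h := Scheme.Modules.map_comp_smul (M := M) f.unop (resO (le_top : U.unop ≤ ⊤) r)
    have h2 : X.presheaf.map f.unop.op (resO (le_top : U.unop ≤ ⊤) r) =
        resO (le_top : V.unop ≤ ⊤) r := by
      simp only [resO, ← ConcreteCategory.comp_apply, ← Functor.map_comp]
      rfl
    rw [h2] at h
    exact h.symm

theorem smul_smul_comm' {U : X.Opens} (r a : Γ(X, U)) (m : Γ(M, U)) :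
    r • (a • m) = a • (r • m) := smul_comm r a m

/-- Multiplication by a global function `r ∈ Γ(X, ⊤)` as an endomorphism of `M`. -/
def smulHom (r : Γ(X, ⊤)) : M ⟶ M :=
  ⟨PresheafOfModules.homMk (smulPresheafHom M r) (by
    intro U a m
    exact smul_smul_comm' M (U := U.unop) (resO (le_top : U.unop ≤ ⊤) r) a m)⟩

theorem smulHom_app (r : Γ(X, ⊤)) (U : X.Opens) (s : Γ(M, U)) :
    (smulHom M r).app U s = resO (le_top : U ≤ ⊤) r • s := rfl

theorem hom_ext_apply {M N : X.Modules} {f g : M ⟶ N}
    (h : ∀ (U : X.Opens) (s : Γ(M, U)), f.app U s = g.app U s) : f = g := by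
  apply Scheme.Modules.hom_ext
  intro U
  ext s
  exact h U s

theorem smulHom_one : smulHom M 1 = 𝟙 M := by
  apply hom_ext_apply
  intro U s
  rw [smulHom_app, resO_one, one_smul]
  rfl

theorem smulHom_zero : smulHom M 0 = 0 := by
  apply hom_ext_apply
  intro U s
  rw [smulHom_app]
  have : resO (le_top : U ≤ ⊤) (0 : Γ(X, ⊤)) = 0 := map_zero _
  rw [this, zero_smul]
  rfl

theorem smulHom_add (r r' : Γ(X, ⊤)) : smulHom M (r + r') = smulHom M r + smulHom M r' := by
  apply hom_ext_apply
  intro U s
  rw [smulHom_app]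
  have : resO (le_top : U ≤ ⊤) (r + r') = resO le_top r + resO le_top r' := map_add _ _ _
  rw [this, add_smul]
  rfl

theorem smulHom_mul (r r' : Γ(X, ⊤)) : smulHom M (r * r') = smulHom M r' ≫ smulHom M r := by
  apply hom_ext_apply
  intro U s
  rw [smulHom_app, resO_mul, mul_smul]
  rfl

theorem smulHom_comm (r r' : Γ(X, ⊤)) :
    smulHom M r ≫ smulHom M r' = smulHom M r' ≫ smulHom M r := by
  rw [← smulHom_mul, ← smulHom_mul, mul_comm]

/-- `smulHom` is natural: it commutes with every morphism of modules. -/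
theorem smulHom_naturality {M N : X.Modules} (φ : M ⟶ N) (r : Γ(X, ⊤)) :
    smulHom M r ≫ φ = φ ≫ smulHom N r := by
  apply hom_ext_apply
  intro U s
  change φ.app U ((smulHom M r).app U s) = (smulHom N r).app U (φ.app U s)
  rw [smulHom_app, smulHom_app, Scheme.Modules.Hom.app_smul]

/-- `smulHom` as a ring homomorphism `Γ(X, ⊤) →+* End M`. -/
def smulRingHom : Γ(X, ⊤) →+* End M where
  toFun := smulHom M
  map_one' := smulHom_one M
  map_mul' r r' := smulHom_mul M r r'
  map_zero' := smulHom_zero M
  map_add' r r' := smulHom_add M r r'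

@[simp] theorem smulRingHom_apply (r : Γ(X, ⊤)) : smulRingHom M r = smulHom M r := rfl

end SmulHom

end Fermat.Agent.S25.H626

end
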