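/-
S25 helper (helper626), block GLUE, leaf G4 (part 2): for a module with local generators
(locally free of rank one, sectionwise form) the ring homomorphism
`Γ(X, ⊤) →+* End M`, `r ↦ smulHom M r`, is bijective.
-/
import Mathlib
import Fermat.Agent.S25.H626.SmulHom

set_option autoImplicit false

universe u

noncomputable section

open CategoryTheory AlgebraicGeometry TopologicalSpace Opposite

namespace Fermat.Agent.S25.H626

variable {X : Scheme.{u}}

/-- `s ∈ Γ(M, U)` is a *local generator* of `M` on `U`: for every open `V ≤ U` the restriction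
`s|_V` is a basis of `Γ(M, V)` over `Γ(X, V)`. -/
def IsLocalGenerator (M : X.Modules) (U : X.Opens) (s : Γ(M, U)) : Prop :=
  ∀ (V : X.Opens) (h : V ≤ U), Function.Bijective (fun r : Γ(X, V) => r • res M h s)

/-- `M` is locally free of rank one (sectionwise form). -/
def HasLocalGenerators (M : X.Modules) : Prop :=
  ∀ x : X, ∃ U : X.Opens, x ∈ U ∧ ∃ s : Γ(M, U), IsLocalGenerator M U s

section Gluing

/-- Sections of `𝒪_X` agreeing locally are equal. -/
theorem eq_of_locally_eq_O {ι : Type*} (U : ι → X.Opens) (V : X.Opens) (hUV : ∀ i, U i ≤ V)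
    (hcover : V ≤ iSup U) (r r' : Γ(X, V))
    (h : ∀ i, resO (hUV i) r = resO (hUV i) r') : r = r' :=
  TopCat.Sheaf.eq_of_locally_eq' X.sheaf U V (fun i => homOfLE (hUV i)) hcover r r' h

/-- Sections of `M` agreeing locally are equal. -/
theorem eq_of_locally_eq_M (M : X.Modules) {ι : Type*} (U : ι → X.Opens) (V : X.Opens)
    (hUV : ∀ i, U i ≤ V) (hcover : V ≤ iSup U) (s s' : Γ(M, V))
    (h : ∀ i, res M (hUV i) s = res M (hUV i) s') : s = s' :=
  TopCat.Sheaf.eq_of_locally_eq' (⟨M.presheaf, M.isSheaf⟩ : TopCat.Sheaf Ab X) U V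
    (fun i => homOfLE (hUV i)) hcover s s' h

/-- Compatible local sections of `𝒪_X` glue. -/
theorem exists_gluing_O {ι : Type*} (U : ι → X.Opens) (V : X.Opens) (hUV : ∀ i, U i ≤ V)
    (hcover : V ≤ iSup U) (r : ∀ i, Γ(X, U i))
    (hr : ∀ i j, resO (inf_le_left : U i ⊓ U j ≤ U i) (r i) =
      resO (inf_le_right : U i ⊓ U j ≤ U j) (r j)) :
    ∃ g : Γ(X, V), ∀ i, resO (hUV i) g = r i := by
  obtain ⟨g, hg, -⟩ := TopCat.Sheaf.existsUnique_gluing' X.sheaf U V (fun i => homOfLE (hUV i))
    hcover r (fun i j => hr i j)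
  exact ⟨g, hg⟩

end Gluing

section Main

variable {M : X.Modules}

theorem smulHom_injective (hM : HasLocalGenerators M) : Function.Injective (smulHom M) := by
  intro r r' hrr'
  choose U hxU s hs using hM
  refine eq_of_locally_eq_O U ⊤ (fun _ => le_top) ?_ r r' ?_
  · intro x _
    exact Opens.mem_iSup.mpr ⟨x, hxU x⟩
  · intro x
    have h1 : (smulHom M r).app (U x) (s x) = (smulHom M r').app (U x) (s x) := by rw [hrr']
    rw [smulHom_app, smulHom_app] at h1
    have h2 := (hs x (U x) le_rfl).1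
    apply h2
    simpa using h1

theorem smulHom_surjective (hM : HasLocalGenerators M) : Function.Surjective (smulHom M) := by
  intro φ
  choose U hxU s hs using hM
  -- local coefficients
  have hex : ∀ x, ∃ r : Γ(X, U x), r • s x = φ.app (U x) (s x) := by
    intro x
    obtain ⟨r, hr⟩ := (hs x (U x) le_rfl).2 (φ.app (U x) (s x))
    exact ⟨r, by simpa using hr⟩
  choose r hr using hex
  -- on every `V ≤ U x`, `φ` multiplies `s x |_V` by `r x |_V`
  have hφs : ∀ x (V : X.Opens) (h : V ≤ U x),
      φ.app V (res M h (s x)) = resO h (r x) • res M h (s x) := by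
    intro x V h
    rw [app_res, ← hr x, res_smul]
  -- hence it multiplies every section over `V ≤ U x` by `r x |_V`
  have hφ : ∀ x (V : X.Opens) (h : V ≤ U x) (t : Γ(M, V)),
      φ.app V t = resO h (r x) • t := by
    intro x V h t
    obtain ⟨b, hb⟩ := (hs x V h).2 t
    simp only at hb
    rw [← hb, Scheme.Modules.Hom.app_smul, hφs x V h, smul_smul_comm']
  -- compatibility
  have hcompat : ∀ x y, resO (inf_le_left : U x ⊓ U y ≤ U x) (r x) =
      resO (inf_le_right : U x ⊓ U y ≤ U y) (r y) := by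
    intro x y
    apply (hs y (U x ⊓ U y) inf_le_right).1
    simp only
    rw [← hφ x (U x ⊓ U y) inf_le_left, ← hφ y (U x ⊓ U y) inf_le_right]
  obtain ⟨g, hg⟩ := exists_gluing_O U ⊤ (fun _ => le_top)
    (fun x _ => Opens.mem_iSup.mpr ⟨x, hxU x⟩) r hcompat
  refine ⟨g, ?_⟩
  apply hom_ext_apply
  intro W t
  rw [smulHom_app]
  refine eq_of_locally_eq_M M (fun x => W ⊓ U x) W (fun _ => inf_le_left) ?_ _ _ ?_
  · intro y hy
    exact Opens.mem_iSup.mpr ⟨y, ⟨hy, hxU y⟩⟩
  · intro x
    rw [res_smul, resO_resO, ← app_res, hφ x (W ⊓ U x) inf_le_right, ← hg x, resO_resO]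

/-- **G4.** For a module with local generators, `Γ(X, ⊤) →+* End M` is bijective. -/
theorem smulRingHom_bijective (hM : HasLocalGenerators M) :
    Function.Bijective (smulRingHom M) :=
  ⟨smulHom_injective hM, smulHom_surjective hM⟩

/-- **G4.** The ring isomorphism `Γ(X, ⊤) ≃+* End M` for a module with local generators. -/
def smulRingEquiv (hM : HasLocalGenerators M) : Γ(X, ⊤) ≃+* End M :=
  RingEquiv.ofBijective (smulRingHom M) (smulRingHom_bijective hM)

end Main

end Fermat.Agent.S25.H626

end
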