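/-
S25 helper (helper626), block GLUE, leaf G4 (part 3): an invertible module (Prelude's
`Scheme.Modules.IsInvertible`, phrased with `Scheme.Modules.pullback U.ι`) has local generators
in the sectionwise sense.
-/
import Mathlib
import Fermat.Prelude.Def_AlgebraicGeometry_RelativePicardFunctor
import Fermat.Agent.S25.H626.EndIso

set_option autoImplicit false

universe u

noncomputable section

open CategoryTheory AlgebraicGeometry TopologicalSpace Opposite

namespace Fermat.Agent.S25.H626

section UnitSections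

variable (Y : Scheme.{u})

/-- The unit module `𝒪_Y`. -/
abbrev unitMod : Y.Modules := SheafOfModules.unit Y.ringCatSheaf

/-- A function on `W` as a section of the unit module. -/
def toUnit (W : Y.Opens) (a : Γ(Y, W)) : Γ(unitMod Y, W) := a

/-- A section of the unit module as a function. -/
def ofUnit (W : Y.Opens) (a : Γ(unitMod Y, W)) : Γ(Y, W) := a

@[simp] theorem toUnit_ofUnit (W : Y.Opens) (a : Γ(unitMod Y, W)) : toUnit Y W (ofUnit Y W a) = a :=
  rfl

@[simp] theorem ofUnit_toUnit (W : Y.Opens) (a : Γ(Y, W)) : ofUnit Y W (toUnit Y W a) = a := rfl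

theorem toUnit_bijective (W : Y.Opens) : Function.Bijective (toUnit Y W) :=
  ⟨fun _ _ h => h, fun a => ⟨ofUnit Y W a, rfl⟩⟩

theorem smul_toUnit_one (W : Y.Opens) (a : Γ(Y, W)) :
    a • toUnit Y W 1 = toUnit Y W a := by
  change a * 1 = a
  exact mul_one a

theorem res_toUnit_one {W W' : Y.Opens} (h : W' ≤ W) :
    res (unitMod Y) h (toUnit Y W 1) = toUnit Y W' 1 := by
  change Y.presheaf.map (homOfLE h).op (1 : Γ(Y, W)) = 1
  exact map_one _

end UnitSections

section Trivial

variable {Y : Scheme.{u}} {N : Y.Modules} (e : N ≅ unitMod Y)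

/-- The generator of a trivialised module on `W`. -/
def genOf (W : Y.Opens) : Γ(N, W) := e.inv.app W (toUnit Y W 1)

theorem res_genOf {W W' : Y.Opens} (h : W' ≤ W) : res N h (genOf e W) = genOf e W' := by
  rw [genOf, genOf, ← app_res, res_toUnit_one]

theorem app_hom_inv_apply (W : Y.Opens) (t : Γ(unitMod Y, W)) :
    e.hom.app W (e.inv.app W t) = t := by
  have h : e.inv.app W ≫ e.hom.app W = 𝟙 _ := by
    rw [← Scheme.Modules.Hom.comp_app, e.inv_hom_id]
    rfl
  exact congr($h t)

theorem app_inv_hom_apply (W : Y.Opens) (t : Γ(N, W)) :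
    e.inv.app W (e.hom.app W t) = t := by
  have h : e.hom.app W ≫ e.inv.app W = 𝟙 _ := by
    rw [← Scheme.Modules.Hom.comp_app, e.hom_inv_id]
    rfl
  exact congr($h t)

theorem smul_genOf (W : Y.Opens) (a : Γ(Y, W)) :
    a • genOf e W = e.inv.app W (toUnit Y W a) := by
  rw [genOf, ← Scheme.Modules.Hom.app_smul, smul_toUnit_one]

theorem bijective_smul_genOf (W : Y.Opens) :
    Function.Bijective (fun a : Γ(Y, W) => a • genOf e W) := by
  constructor
  · intro a b hab
    simp only [smul_genOf] at hab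
    have := congrArg (e.hom.app W) hab
    rw [app_hom_inv_apply, app_hom_inv_apply] at this
    exact this
  · intro t
    refine ⟨ofUnit Y W (e.hom.app W t), ?_⟩
    simp only [smul_genOf, toUnit_ofUnit]
    exact app_inv_hom_apply e W t

end Trivial

section Restrict

variable {X Y : Scheme.{u}} (f : Y ⟶ X) [IsOpenImmersion f] (M : X.Modules)
  (e : M.restrict f ≅ unitMod Y)

/-- The generator on `f ''ᵁ W`, as a section of `M`. -/
def genX (W : Y.Opens) : Γ(M, f ''ᵁ W) := genOf e W

theorem res_genX {W W' : Y.Opens} (h : W' ≤ W) :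
    res M (f.image_mono h) (genX f M e W) = genX f M e W' :=
  res_genOf e h

theorem smul_genX (W : Y.Opens) (r : Γ(X, f ''ᵁ W)) :
    r • genX f M e W = ((f.appIso W).hom r) • genOf e W := by
  have h : (f.appIso W).inv ((f.appIso W).hom r) = r := by
    rw [← ConcreteCategory.comp_apply, Iso.hom_inv_id]
    rfl
  conv_lhs => rw [← h]
  rfl

theorem bijective_smul_genX (W : Y.Opens) :
    Function.Bijective (fun r : Γ(X, f ''ᵁ W) => r • genX f M e W) := by
  have h1 : (fun r : Γ(X, f ''ᵁ W) => r • genX f M e W) =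
      (fun a : Γ(Y, W) => a • genOf e W) ∘ (fun r : Γ(X, f ''ᵁ W) => (f.appIso W).hom r) := by
    funext r
    exact smul_genX f M e W r
  rw [h1]
  refine (bijective_smul_genOf e W).comp ?_
  exact (ConcreteCategory.bijective_of_isIso (f.appIso W).hom)

theorem exists_eq_image {V : X.Opens} (h : V ≤ f ''ᵁ ⊤) : ∃ W : Y.Opens, V = f ''ᵁ W := by
  refine ⟨f ⁻¹ᵁ V, ?_⟩
  rw [Scheme.Hom.image_preimage_eq_opensRange_inf]
  have : f ''ᵁ ⊤ = f.opensRange := by
    ext x
    simp
  rw [← this]
  exact (inf_eq_right.mpr h).symm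

/-- A trivialisation of `M` on an open subscheme gives a local generator. -/
theorem isLocalGenerator_genX : IsLocalGenerator M (f ''ᵁ ⊤) (genX f M e ⊤) := by
  intro V h
  obtain ⟨W, rfl⟩ := exists_eq_image f h
  have hres : res M h (genX f M e ⊤) = genX f M e W := res_genX f M e (le_top : W ≤ ⊤)
  simp only [hres]
  exact bijective_smul_genX f M e W

end Restrict

section Invertible

variable {X : Scheme.{u}} {M : X.Modules}

/-- **Invertible modules have local generators.** -/
theorem hasLocalGenerators_of_isInvertible (hM : Scheme.Modules.IsInvertible M) :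
    HasLocalGenerators M := by
  intro x
  obtain ⟨U, hxU, ⟨e⟩⟩ := hM.exists_trivialization x
  let e' : M.restrict U.ι ≅ unitMod U.toScheme :=
    (Scheme.Modules.restrictFunctorIsoPullback U.ι).app M ≪≫ e
  refine ⟨U.ι ''ᵁ ⊤, ?_, genX U.ι M e' ⊤, isLocalGenerator_genX U.ι M e'⟩
  rw [Scheme.Opens.ι_image_top]
  exact hxU

/-- **G4** for the Prelude's `IsInvertible`: `Γ(X, ⊤) →+* End M` is bijective. -/
theorem smulRingHom_bijective_of_isInvertible (hM : Scheme.Modules.IsInvertible M) :
    Function.Bijective (smulRingHom M) :=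
  smulRingHom_bijective (hasLocalGenerators_of_isInvertible hM)

/-- **G4**: the ring isomorphism `Γ(X, ⊤) ≃+* End M` for an invertible module. -/
def endRingEquiv (hM : Scheme.Modules.IsInvertible M) : Γ(X, ⊤) ≃+* End M :=
  smulRingEquiv (hasLocalGenerators_of_isInvertible hM)

@[simp] theorem endRingEquiv_apply (hM : Scheme.Modules.IsInvertible M) (r : Γ(X, ⊤)) :
    endRingEquiv hM r = smulHom M r := rfl

/-- **G4**, automorphisms: `Γ(X, ⊤)ˣ ≃* Aut M` for an invertible module. -/
def autMulEquiv (hM : Scheme.Modules.IsInvertible M) : (Γ(X, ⊤))ˣ ≃* Aut M :=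
  (Units.mapEquiv (endRingEquiv hM).toMulEquiv).trans (Aut.unitsEndEquivAut M)

theorem autMulEquiv_hom (hM : Scheme.Modules.IsInvertible M) (u : (Γ(X, ⊤))ˣ) :
    (autMulEquiv hM u).hom = smulHom M (u : Γ(X, ⊤)) := rfl

/-- **G4**, torsor form: two isomorphisms `M ≅ N` out of an invertible module differ by a
unique global unit. -/
theorem existsUnique_unit_of_isos (hM : Scheme.Modules.IsInvertible M) {N : X.Modules}
    (e e' : M ≅ N) : ∃! u : (Γ(X, ⊤))ˣ, e'.hom = smulHom M (u : Γ(X, ⊤)) ≫ e.hom := by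
  have hbij := smulRingHom_bijective_of_isInvertible hM
  obtain ⟨r, hr⟩ := hbij.2 (e'.hom ≫ e.inv)
  obtain ⟨r', hr'⟩ := hbij.2 (e.hom ≫ e'.inv)
  rw [smulRingHom_apply] at hr hr'
  have h1 : r * r' = 1 := by
    apply hbij.1
    rw [smulRingHom_apply, smulRingHom_apply, smulHom_mul, hr, hr', smulHom_one]
    simp
  have h2 : r' * r = 1 := by rw [mul_comm]; exact h1
  refine ⟨⟨r, r', h1, h2⟩, ?_, ?_⟩
  · show e'.hom = smulHom M r ≫ e.hom
    rw [hr]
    simp
  · intro u hu
    apply Units.ext
    apply hbij.1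
    show smulHom M (u : Γ(X, ⊤)) = smulHom M r
    rw [hr, hu]
    simp

end Invertible

end Fermat.Agent.S25.H626

end
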