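/-
S25, block DICT (helper626): algebra lemmas on localization at one element (Mathlib only).
-/
import Mathlib

set_option autoImplicit false

namespace Fermat.Agent.S25.H626

section Alg

variable {R R' : Type*} [CommRing R] [CommRing R'] [Algebra R R']
  {N N' : Type*} [AddCommGroup N] [Module R N] [AddCommGroup N'] [Module R N'] [Module R' N']
  [IsScalarTower R R' N']

/-- A criterion for `IsLocalizedModule` at the powers of one element. -/
theorem isLocalizedModule_powers_of (h : R) [IsLocalization.Away h R'] (r : N →ₗ[R] N')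
    (hinj : ∀ n, r n = 0 → ∃ k : ℕ, h ^ k • n = 0)
    (hsurj : ∀ n', ∃ (k : ℕ) (n : N), r n = h ^ k • n') :
    IsLocalizedModule (Submonoid.powers h) r where
  map_units := by
    rintro ⟨x, k, rfl⟩
    have hu : IsUnit (algebraMap R R' (h ^ k)) :=
      IsLocalization.map_units R' (⟨h ^ k, k, rfl⟩ : Submonoid.powers h)
    obtain ⟨u, hu⟩ := hu
    rw [Module.End.isUnit_iff]
    refine ⟨fun a b hab => ?_, fun b => ⟨(↑u⁻¹ : R') • b, ?_⟩⟩
    · simp only [Module.algebraMap_end_apply] at hab
      have h1 : (u : R') • a = (u : R') • b := by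
        rw [hu, algebraMap_smul, algebraMap_smul]
        exact hab
      have := congrArg (fun z => (↑u⁻¹ : R') • z) h1
      simpa [smul_smul] using this
    · simp only [Module.algebraMap_end_apply]
      rw [← algebraMap_smul R' (h ^ k) ((↑u⁻¹ : R') • b), ← hu, smul_smul]
      simp
  surj := by
    intro y
    obtain ⟨k, n, hn⟩ := hsurj y
    exact ⟨⟨n, ⟨h ^ k, k, rfl⟩⟩, hn.symm⟩
  exists_of_eq := by
    intro x₁ x₂ hx
    have h0 : r (x₁ - x₂) = 0 := by rw [map_sub, hx, sub_self]
    obtain ⟨k, hk⟩ := hinj _ h0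
    refine ⟨⟨h ^ k, k, rfl⟩, ?_⟩
    rw [smul_sub, sub_eq_zero] at hk
    exact hk

/-- If `N → N'` is the localization at `h` and `N'` is free of rank one over `R' = R[1/h]`,
then the standard localization `N[1/h]` is free of rank one over `R[1/h]`. -/
theorem nonempty_away_equiv_of_gen (h : R) [IsLocalization.Away h R'] (r : N →ₗ[R] N')
    (hinj : ∀ n, r n = 0 → ∃ k : ℕ, h ^ k • n = 0)
    (hsurj : ∀ n', ∃ (k : ℕ) (n : N), r n = h ^ k • n')
    (g : N') (hg : Function.Bijective (fun a : R' => a • g)) :
    Nonempty (LocalizedModule.Away h N ≃ₗ[Localization.Away h] Localization.Away h) := by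
  have : IsLocalizedModule (Submonoid.powers h) r := isLocalizedModule_powers_of (R' := R') h r hinj hsurj
  let e1 : LocalizedModule (Submonoid.powers h) N ≃ₗ[R] N' :=
    IsLocalizedModule.iso (Submonoid.powers h) r
  let e2 : R' ≃ₗ[R'] N' :=
    LinearEquiv.ofBijective (LinearMap.toSpanSingleton R' N' g) hg
  let e3 : R' ≃ₗ[R] Localization.Away h :=
    (IsLocalization.algEquiv (Submonoid.powers h) R' (Localization.Away h)).toLinearEquiv
  let e : LocalizedModule (Submonoid.powers h) N ≃ₗ[R] Localization.Away h :=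
    e1 ≪≫ₗ (e2.symm.restrictScalars R) ≪≫ₗ e3
  exact ⟨LinearEquiv.extendScalarsOfIsLocalization (Submonoid.powers h)
    (Localization.Away h) e⟩

end Alg

end Fermat.Agent.S25.H626
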