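/-
S25, block DICT (helper626): algebra for `Stmt.DictSections` — invertibility transports along
ring isomorphisms.
-/
import Mathlib
import Fermat.Agent.S25.H505.SemilinearBC
import Fermat.Agent.S25.H626.SecAlg

set_option autoImplicit false
set_option linter.style.haveILetI false

universe u

namespace Fermat.Agent.S25.H626

open TensorProduct

/-- Invertibility of a module transports along a ring isomorphism. -/
theorem invertible_of_ringEquiv {R S : Type u} [CommRing R] [CommRing S] (e : R ≃+* S)
    {N : Type u} [AddCommGroup N] [Module S N] [Module R N]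
    (h : ∀ (r : R) (n : N), r • n = e r • n) [Module.Invertible S N] :
    Module.Invertible R N := by
  letI : Algebra S R := e.symm.toRingHom.toAlgebra
  have halg : ∀ s : S, algebraMap S R s = e.symm s := fun _ => rfl
  haveI : IsScalarTower S R N := ⟨fun s r n => by
    rw [h, h, Algebra.smul_def, map_mul, halg, e.apply_symm_apply, mul_smul]⟩
  let f : N →ₗ[S] N := LinearMap.id
  have hf : IsBaseChange R f := by
    apply H505.IsBC.isBaseChange
    apply H505.isBC_of_bijective
    · intro s n
      change s • n = (algebraMap S R s) • n
      rw [h, halg, e.apply_symm_apply]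
    · exact e.symm.bijective
    · exact Function.bijective_id
  exact Module.Invertible.congr hf.equiv

/-- A semilinear map which is a localization at one element is a base change. -/
theorem isBC_of_loc {R R' : Type u} [CommRing R] [CommRing R'] (ρ : R →+* R') (h : R)
    (hloc : @IsLocalization.Away R _ h R' _ ρ.toAlgebra)
    {N N' : Type u} [AddCommGroup N] [Module R N] [AddCommGroup N'] [Module R' N']
    (r : N →+ N') (hsl : ∀ (a : R) (n : N), r (a • n) = ρ a • r n)
    (hinj : ∀ n, r n = 0 → ∃ k : ℕ, h ^ k • n = 0)
    (hsurj : ∀ n', ∃ (k : ℕ) (n : N), r n = ρ h ^ k • n') :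
    H505.IsBC ρ r := by
  letI : Algebra R R' := ρ.toAlgebra
  letI : Module R N' := Module.compHom N' ρ
  haveI : IsScalarTower R R' N' := ⟨fun a b n => by
    change (ρ a * b) • n = ρ a • (b • n); rw [mul_smul]⟩
  haveI : IsLocalization.Away h R' := hloc
  let f : N →ₗ[R] N' := { toFun := r, map_add' := r.map_add, map_smul' := hsl }
  haveI : IsLocalizedModule (Submonoid.powers h) f := by
    refine isLocalizedModule_powers_of (R' := R') h f hinj ?_
    intro n'
    obtain ⟨k, n, hn⟩ := hsurj n'
    refine ⟨k, n, hn.trans ?_⟩
    change ρ h ^ k • n' = ρ (h ^ k) • n'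
    rw [map_pow]
  have hbc : IsBaseChange R' f := IsLocalizedModule.isBaseChange (Submonoid.powers h) R' f
  exact H505.isBC_of_isBaseChange f hbc

end Fermat.Agent.S25.H626
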