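/-
S25, block DICT (helper626): sections of modules with local generators — gluing toolkit.
-/
import Mathlib
import Fermat.Agent.S25.H626.EndIso

set_option autoImplicit false

universe u

open CategoryTheory AlgebraicGeometry TopologicalSpace Opposite

namespace Fermat.Agent.S25.H626

variable {X : Scheme.{u}}

section ResLemmas

variable (M : X.Modules)

theorem res_zero {U V : X.Opens} (h : V ≤ U) : res M h (0 : Γ(M, U)) = 0 :=
  map_zero _

theorem res_sub {U V : X.Opens} (h : V ≤ U) (s t : Γ(M, U)) :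
    res M h (s - t) = res M h s - res M h t :=
  map_sub _ s t

theorem res_neg {U V : X.Opens} (h : V ≤ U) (s : Γ(M, U)) :
    res M h (-s) = -res M h s :=
  map_neg _ s

theorem resO_pow {U V : X.Opens} (h : V ≤ U) (r : Γ(X, U)) (n : ℕ) :
    resO h (r ^ n) = resO h r ^ n :=
  map_pow _ r n

theorem resO_zero {U V : X.Opens} (h : V ≤ U) : resO h (0 : Γ(X, U)) = 0 :=
  map_zero _

theorem res_pow_smul {U V : X.Opens} (h : V ≤ U) (r : Γ(X, U)) (n : ℕ) (s : Γ(M, U)) :
    res M h (r ^ n • s) = resO h r ^ n • res M h s := by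
  rw [res_smul, resO_pow]

/-- Restriction is independent of the proof of the inequality. -/
theorem res_congr {U V : X.Opens} (h h' : V ≤ U) (s : Γ(M, U)) : res M h s = res M h' s := rfl

end ResLemmas

section GluingM

/-- Compatible local sections of `M` glue. -/
theorem exists_gluing_M (M : X.Modules) {ι : Type*} (U : ι → X.Opens) (V : X.Opens)
    (hUV : ∀ i, U i ≤ V) (hcover : V ≤ iSup U) (s : ∀ i, Γ(M, U i))
    (hs : ∀ i j, res M (inf_le_left : U i ⊓ U j ≤ U i) (s i) =
      res M (inf_le_right : U i ⊓ U j ≤ U j) (s j)) :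
    ∃ g : Γ(M, V), ∀ i, res M (hUV i) g = s i := by
  obtain ⟨g, hg, -⟩ := TopCat.Sheaf.existsUnique_gluing'
    (⟨M.presheaf, M.isSheaf⟩ : TopCat.Sheaf Ab X) U V (fun i => homOfLE (hUV i)) hcover s
    (fun i j => hs i j)
  exact ⟨g, hg⟩

end GluingM

section Generators

variable {M : X.Modules}

theorem IsLocalGenerator.restrict {U U' : X.Opens} {g : Γ(M, U)}
    (hg : IsLocalGenerator M U g) (h : U' ≤ U) : IsLocalGenerator M U' (res M h g) := by
  intro V hV
  have := hg V (hV.trans h)
  simpa only [res_res] using this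

theorem IsLocalGenerator.exists_smul_eq {U : X.Opens} {g : Γ(M, U)}
    (hg : IsLocalGenerator M U g) {V : X.Opens} (h : V ≤ U) (t : Γ(M, V)) :
    ∃ a : Γ(X, V), a • res M h g = t :=
  (hg V h).2 t

theorem IsLocalGenerator.eq_zero_of_smul_eq_zero {U : X.Opens} {g : Γ(M, U)}
    (hg : IsLocalGenerator M U g) {V : X.Opens} (h : V ≤ U) (a : Γ(X, V))
    (ha : a • res M h g = 0) : a = 0 := by
  apply (hg V h).1
  simpa using ha

theorem IsLocalGenerator.exists_smul_eq_self {U : X.Opens} {g : Γ(M, U)}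
    (hg : IsLocalGenerator M U g) (t : Γ(M, U)) : ∃ a : Γ(X, U), a • g = t := by
  obtain ⟨a, ha⟩ := hg.exists_smul_eq (le_refl U) t
  exact ⟨a, by simpa using ha⟩

end Generators

end Fermat.Agent.S25.H626
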