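/-
S25, block DICT (helper626): sections of an invertible module over an affine open localize
correctly on basic opens (direct proof from local generators; no `tilde`).
-/
import Mathlib
import Fermat.Agent.S25.H626.SecGlue

set_option autoImplicit false

universe u

open CategoryTheory AlgebraicGeometry TopologicalSpace Opposite

namespace Fermat.Agent.S25.H626

variable {X : Scheme.{u}}

section StructureSheaf

/-- A function on an affine open vanishing on a basic open is killed by a power. -/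
theorem exists_pow_mul_eq_zero_O {W : X.Opens} (hW : IsAffineOpen W) (f a : Γ(X, W))
    {W' : X.Opens} (hle : W' ≤ W) (hf : X.basicOpen f ≤ W') (h0 : resO hle a = 0) :
    ∃ n : ℕ, f ^ n * a = 0 := by
  apply exists_pow_mul_eq_zero_of_res_basicOpen_eq_zero_of_isAffineOpen X hW a f
  have h1 : resO (X.basicOpen_le f) a = resO hf (resO hle a) := (resO_resO _ _ _).symm
  rw [h0, resO_zero] at h1
  exact h1

/-- A function on a basic open of an affine open extends after multiplication by a power. -/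
theorem exists_eq_pow_mul_O {W : X.Opens} (hW : IsAffineOpen W) (f : Γ(X, W))
    {W' : X.Opens} (hle : W' ≤ W) (heq : W' = X.basicOpen f) (b : Γ(X, W')) :
    ∃ (n : ℕ) (a : Γ(X, W)), resO hle a = resO hle f ^ n * b := by
  subst heq
  obtain ⟨n, y, hy⟩ := exists_eq_pow_mul_of_isAffineOpen X W hW f b
  exact ⟨n, y, hy⟩

end StructureSheaf

section Trivial

variable {M : X.Modules}

/-- (c0) the case of a trivialised module. -/
theorem exists_pow_smul_eq_zero_of_gen {W : X.Opens} (hW : IsAffineOpen W) {g : Γ(M, W)}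
    (hg : IsLocalGenerator M W g) (f : Γ(X, W)) (s : Γ(M, W))
    {W' : X.Opens} (hle : W' ≤ W) (hf : X.basicOpen f ≤ W') (h0 : res M hle s = 0) :
    ∃ n : ℕ, f ^ n • s = 0 := by
  obtain ⟨a, rfl⟩ := hg.exists_smul_eq_self s
  rw [res_smul] at h0
  have ha : resO hle a = 0 := hg.eq_zero_of_smul_eq_zero hle _ h0
  obtain ⟨n, hn⟩ := exists_pow_mul_eq_zero_O hW f a hle hf ha
  exact ⟨n, by rw [smul_smul, hn, zero_smul]⟩

/-- (b0) the case of a trivialised module. -/
theorem exists_res_eq_pow_smul_of_gen {W : X.Opens} (hW : IsAffineOpen W) {g : Γ(M, W)}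
    (hg : IsLocalGenerator M W g) (f : Γ(X, W))
    {W' : X.Opens} (hle : W' ≤ W) (heq : W' = X.basicOpen f) (t : Γ(M, W')) :
    ∃ (n : ℕ) (s : Γ(M, W)), res M hle s = resO hle f ^ n • t := by
  obtain ⟨b, rfl⟩ := hg.exists_smul_eq hle t
  obtain ⟨n, a, ha⟩ := exists_eq_pow_mul_O hW f hle heq b
  exact ⟨n, a • g, by rw [res_smul, ha, mul_smul]⟩

end Trivial

section Cover

variable {M : X.Modules}

/-- On an affine open, a module with local generators is trivialised on a finite cover by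
basic opens. -/
theorem exists_finset_basicOpen_gen (hM : HasLocalGenerators M) {V : X.Opens}
    (hV : IsAffineOpen V) :
    ∃ S : Finset Γ(X, V), Ideal.span (S : Set Γ(X, V)) = ⊤ ∧
      ∀ h ∈ S, ∃ g : Γ(M, X.basicOpen h), IsLocalGenerator M (X.basicOpen h) g := by
  set s : Set Γ(X, V) := {h | ∃ g : Γ(M, X.basicOpen h), IsLocalGenerator M (X.basicOpen h) g}
    with hs
  have hcov : V ≤ ⨆ f : s, X.basicOpen f.1 := by
    intro x hx
    obtain ⟨U, hxU, g, hg⟩ := hM x
    obtain ⟨h, hle, hxh⟩ := hV.exists_basicOpen_le (V := U) ⟨x, hxU⟩ hx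
    have hmem : h ∈ s := ⟨res M hle g, hg.restrict hle⟩
    exact Opens.mem_iSup.mpr ⟨⟨h, hmem⟩, hxh⟩
  have hspan : Ideal.span s = ⊤ := hV.self_le_iSup_basicOpen_iff.mp hcov
  obtain ⟨S, hSs, hS⟩ := (Ideal.span_eq_top_iff_finite s).mp hspan
  exact ⟨S, hS, fun h hh => hSs hh⟩

theorem le_iSup_basicOpen_of_span {V : X.Opens} (hV : IsAffineOpen V) (S : Finset Γ(X, V))
    (hS : Ideal.span (S : Set Γ(X, V)) = ⊤) : V ≤ ⨆ h : S, X.basicOpen h.1 :=
  hV.self_le_iSup_basicOpen_iff.mpr hS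

end Cover

section Main

variable {M : X.Modules}

/-- **(S2), injectivity part.** A section over an affine open vanishing on a basic open is
killed by a power of the function. -/
theorem exists_pow_smul_eq_zero (hM : HasLocalGenerators M) {V : X.Opens}
    (hV : IsAffineOpen V) (f : Γ(X, V)) (s : Γ(M, V)) {V' : X.Opens} (hle : V' ≤ V)
    (hf : X.basicOpen f ≤ V') (h0 : res M hle s = 0) : ∃ n : ℕ, f ^ n • s = 0 := by
  obtain ⟨S, hS, hgen⟩ := exists_finset_basicOpen_gen hM hV
  have key : ∀ h : S, ∃ n : ℕ, res M (X.basicOpen_le h.1) (f ^ n • s) = 0 := by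
    intro h
    obtain ⟨g, hg⟩ := hgen h.1 h.2
    have hW : IsAffineOpen (X.basicOpen h.1) := hV.basicOpen h.1
    have hWV : X.basicOpen h.1 ≤ V := X.basicOpen_le h.1
    have hbo : X.basicOpen (resO hWV f) ≤ X.basicOpen h.1 ⊓ V' := by
      rw [show X.basicOpen (resO hWV f) = X.basicOpen h.1 ⊓ X.basicOpen f from
        Scheme.basicOpen_res _ _ _]
      exact inf_le_inf_left _ hf
    have hres : res M (inf_le_left : X.basicOpen h.1 ⊓ V' ≤ X.basicOpen h.1)
        (res M hWV s) = 0 := by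
      rw [res_res]
      have h1 : res M ((inf_le_left : X.basicOpen h.1 ⊓ V' ≤ X.basicOpen h.1).trans hWV) s =
          res M (inf_le_right : X.basicOpen h.1 ⊓ V' ≤ V') (res M hle s) := (res_res ..).symm
      rw [h1, h0, res_zero]
    obtain ⟨n, hn⟩ := exists_pow_smul_eq_zero_of_gen hW hg (resO hWV f) (res M hWV s)
      inf_le_left hbo hres
    exact ⟨n, by rw [res_pow_smul]; exact hn⟩
  choose n hn using key
  refine ⟨Finset.univ.sup n, ?_⟩
  apply eq_of_locally_eq_M M (fun h : S => X.basicOpen h.1) V (fun h => X.basicOpen_le h.1)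
    (le_iSup_basicOpen_of_span hV S hS)
  intro h
  rw [res_zero]
  have hle' : n h ≤ Finset.univ.sup n := Finset.le_sup (Finset.mem_univ h)
  obtain ⟨k, hk⟩ := Nat.exists_eq_add_of_le hle'
  rw [hk, pow_add, mul_comm, mul_smul, res_smul, hn h, smul_zero]

/-- **(S2), surjectivity part.** A section over a basic open of an affine open extends to the
affine open after multiplication by a power of the function. -/
theorem exists_res_eq_pow_smul (hM : HasLocalGenerators M) {V : X.Opens}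
    (hV : IsAffineOpen V) (f : Γ(X, V)) {V' : X.Opens} (hle : V' ≤ V)
    (heq : V' = X.basicOpen f) (t : Γ(M, V')) :
    ∃ (n : ℕ) (s : Γ(M, V)), res M hle s = resO hle f ^ n • t := by
  obtain ⟨S, hS, hgen⟩ := exists_finset_basicOpen_gen hM hV
  have hWV : ∀ h : S, X.basicOpen h.1 ≤ V := fun h => X.basicOpen_le h.1
  have hWaff : ∀ h : S, IsAffineOpen (X.basicOpen h.1) := fun h => hV.basicOpen h.1
  -- step 1: local extensions
  have step1 : ∀ h : S, ∃ (n : ℕ) (s : Γ(M, X.basicOpen h.1)),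
      res M (inf_le_left : X.basicOpen h.1 ⊓ V' ≤ X.basicOpen h.1) s =
        resO ((inf_le_left : X.basicOpen h.1 ⊓ V' ≤ X.basicOpen h.1).trans (hWV h)) f ^ n •
          res M (inf_le_right : X.basicOpen h.1 ⊓ V' ≤ V') t := by
    intro h
    obtain ⟨g, hg⟩ := hgen h.1 h.2
    have hbo : X.basicOpen h.1 ⊓ V' = X.basicOpen (resO (hWV h) f) := by
      rw [show X.basicOpen (resO (hWV h) f) = X.basicOpen h.1 ⊓ X.basicOpen f from
        Scheme.basicOpen_res _ _ _, heq]
    obtain ⟨n, s, hs⟩ := exists_res_eq_pow_smul_of_gen (hWaff h) hg (resO (hWV h) f)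
      inf_le_left hbo (res M (inf_le_right : X.basicOpen h.1 ⊓ V' ≤ V') t)
    refine ⟨n, s, ?_⟩
    rw [hs, resO_resO]
  choose n s hs using step1
  -- uniform exponent
  obtain ⟨N, hN⟩ : ∃ N : ℕ, N = Finset.univ.sup n := ⟨_, rfl⟩
  obtain ⟨s', hs'⟩ : ∃ s' : ∀ h : S, Γ(M, X.basicOpen h.1),
      ∀ h, s' h = resO (hWV h) f ^ (N - n h) • s h := ⟨_, fun _ => rfl⟩
  have hs'res : ∀ h : S, res M (inf_le_left : X.basicOpen h.1 ⊓ V' ≤ X.basicOpen h.1) (s' h) =
        resO ((inf_le_left : X.basicOpen h.1 ⊓ V' ≤ X.basicOpen h.1).trans (hWV h)) f ^ N •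
          res M (inf_le_right : X.basicOpen h.1 ⊓ V' ≤ V') t := by
    intro h
    have hle' : n h ≤ N := hN ▸ Finset.le_sup (Finset.mem_univ h)
    rw [hs' h, res_pow_smul, hs h, resO_resO, smul_smul, ← pow_add, Nat.sub_add_cancel hle']
  -- step 2: compatibility up to a power
  have step2 : ∀ p : S × S, ∃ m : ℕ,
      resO ((inf_le_left : X.basicOpen p.1.1 ⊓ X.basicOpen p.2.1 ≤ X.basicOpen p.1.1).trans
        (hWV p.1)) f ^ m •
        (res M (inf_le_left : X.basicOpen p.1.1 ⊓ X.basicOpen p.2.1 ≤ X.basicOpen p.1.1)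
            (s' p.1) -
          res M (inf_le_right : X.basicOpen p.1.1 ⊓ X.basicOpen p.2.1 ≤ X.basicOpen p.2.1)
            (s' p.2)) = 0 := by
    rintro ⟨h, h'⟩
    obtain ⟨g, hg⟩ := hgen h.1 h.2
    have hWW : X.basicOpen h.1 ⊓ X.basicOpen h'.1 ≤ V := inf_le_left.trans (hWV h)
    have haff : IsAffineOpen (X.basicOpen h.1 ⊓ X.basicOpen h'.1) := by
      rw [← Scheme.basicOpen_mul]
      exact hV.basicOpen _
    have hg' := hg.restrict (inf_le_left : X.basicOpen h.1 ⊓ X.basicOpen h'.1 ≤ X.basicOpen h.1)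
    have hbo : X.basicOpen (resO hWW f) ≤ (X.basicOpen h.1 ⊓ X.basicOpen h'.1) ⊓ V' := by
      rw [show X.basicOpen (resO hWW f) = (X.basicOpen h.1 ⊓ X.basicOpen h'.1) ⊓ X.basicOpen f
        from Scheme.basicOpen_res _ _ _, heq]
    apply exists_pow_smul_eq_zero_of_gen haff hg' (resO hWW f) _
      (inf_le_left : (X.basicOpen h.1 ⊓ X.basicOpen h'.1) ⊓ V' ≤ _) hbo
    rw [res_sub, res_res, res_res]
    have e1 : res M ((inf_le_left : (X.basicOpen h.1 ⊓ X.basicOpen h'.1) ⊓ V' ≤
          X.basicOpen h.1 ⊓ X.basicOpen h'.1).trans inf_le_left) (s' h) =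
        res M (show (X.basicOpen h.1 ⊓ X.basicOpen h'.1) ⊓ V' ≤ X.basicOpen h.1 ⊓ V' from
          inf_le_inf_right _ inf_le_left)
          (res M (inf_le_left : X.basicOpen h.1 ⊓ V' ≤ X.basicOpen h.1) (s' h)) :=
      (res_res ..).symm
    have e2 : res M ((inf_le_left : (X.basicOpen h.1 ⊓ X.basicOpen h'.1) ⊓ V' ≤
          X.basicOpen h.1 ⊓ X.basicOpen h'.1).trans inf_le_right) (s' h') =
        res M (show (X.basicOpen h.1 ⊓ X.basicOpen h'.1) ⊓ V' ≤ X.basicOpen h'.1 ⊓ V' from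
          inf_le_inf_right _ inf_le_right)
          (res M (inf_le_left : X.basicOpen h'.1 ⊓ V' ≤ X.basicOpen h'.1) (s' h')) :=
      (res_res ..).symm
    rw [e1, e2, hs'res h, hs'res h', res_pow_smul, res_pow_smul, res_res, res_res,
      resO_resO, resO_resO]
    exact sub_self _
  choose m hm using step2
  obtain ⟨Mx, hMx⟩ : ∃ Mx : ℕ, Mx = Finset.univ.sup m := ⟨_, rfl⟩
  obtain ⟨σ, hσ⟩ : ∃ σ : ∀ h : S, Γ(M, X.basicOpen h.1),
      ∀ h, σ h = resO (hWV h) f ^ Mx • s' h := ⟨_, fun _ => rfl⟩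
  have hcompat : ∀ h h' : S,
      res M (inf_le_left : X.basicOpen h.1 ⊓ X.basicOpen h'.1 ≤ X.basicOpen h.1) (σ h) =
        res M (inf_le_right : X.basicOpen h.1 ⊓ X.basicOpen h'.1 ≤ X.basicOpen h'.1) (σ h') := by
    intro h h'
    have hle' : m (h, h') ≤ Mx := hMx ▸ Finset.le_sup (Finset.mem_univ (h, h'))
    obtain ⟨k, hk⟩ := Nat.exists_eq_add_of_le hle'
    rw [← sub_eq_zero, hσ h, hσ h', res_pow_smul, res_pow_smul, resO_resO, resO_resO, ← smul_sub, hk,
      pow_add, mul_comm, mul_smul]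
    have := hm (h, h')
    simp only at this
    rw [this, smul_zero]
  obtain ⟨g, hg⟩ := exists_gluing_M M (fun h : S => X.basicOpen h.1) V hWV
    (le_iSup_basicOpen_of_span hV S hS) σ hcompat
  refine ⟨Mx + N, g, ?_⟩
  apply eq_of_locally_eq_M M (fun h : S => X.basicOpen h.1 ⊓ V') V' (fun h => inf_le_right)
  · intro x hx
    have hxV : x ∈ V := hle hx
    obtain ⟨h, hxh⟩ := Opens.mem_iSup.mp (le_iSup_basicOpen_of_span hV S hS hxV)
    exact Opens.mem_iSup.mpr ⟨h, ⟨hxh, hx⟩⟩
  · intro h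
    rw [res_res, res_pow_smul, resO_resO]
    have e1 : res M ((inf_le_right : X.basicOpen h.1 ⊓ V' ≤ V').trans hle) g =
        res M (inf_le_left : X.basicOpen h.1 ⊓ V' ≤ X.basicOpen h.1) (res M (hWV h) g) :=
      (res_res ..).symm
    rw [e1, hg h, hσ h, res_pow_smul, hs'res h, resO_resO, smul_smul, ← pow_add]

end Main

end Fermat.Agent.S25.H626
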