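/-
S25, block DICT (helper626): sections of an invertible module over an affine open form an
invertible module; restriction to a basic open is a localization (bundled forms).
-/
import Mathlib
import Fermat.Prelude.Def_AlgebraicGeometry_RelativePicardFunctor
import Fermat.Agent.S25.H626.SecLoc
import Fermat.Agent.S25.H626.SecAlg
import Fermat.Agent.S25.H626.LocalGen
import Fermat.Agent.S25.H445.LocalInvertible

set_option autoImplicit false

universe u

open CategoryTheory AlgebraicGeometry TopologicalSpace Opposite

namespace Fermat.Agent.S25.H626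

noncomputable section

variable {X : Scheme.{u}}

/-- Restriction of functions, as a ring homomorphism. -/
def resORingHom {U V : X.Opens} (h : V ≤ U) : Γ(X, U) →+* Γ(X, V) :=
  (X.presheaf.map (homOfLE h).op).hom

@[simp] theorem resORingHom_apply {U V : X.Opens} (h : V ≤ U) (r : Γ(X, U)) :
    resORingHom h r = resO h r := rfl

/-- Restriction of sections, as an additive homomorphism. -/
def resAddHom (M : X.Modules) {U V : X.Opens} (h : V ≤ U) : Γ(M, U) →+ Γ(M, V) :=
  (M.presheaf.map (homOfLE h).op).hom

@[simp] theorem resAddHom_apply (M : X.Modules) {U V : X.Opens} (h : V ≤ U) (s : Γ(M, U)) :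
    resAddHom M h s = res M h s := rfl

section Bundled

variable (M : X.Modules) {V V' : X.Opens} (hle : V' ≤ V)

/-- `Γ(M, V')` as a module over `Γ(X, V)` for `V' ≤ V` (restriction of scalars).  Not an
instance. -/
@[reducible] def sectionsModuleOfLE : Module Γ(X, V) Γ(M, V') :=
  Module.compHom Γ(M, V') (resORingHom hle)

theorem sectionsModuleOfLE_smul (a : Γ(X, V)) (s : Γ(M, V')) :
    letI := sectionsModuleOfLE M hle
    a • s = resO hle a • s := rfl

/-- Restriction of sections as a `Γ(X, V)`-linear map. -/
def resLinearMap :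
    letI := sectionsModuleOfLE M hle
    Γ(M, V) →ₗ[Γ(X, V)] Γ(M, V') :=
  letI := sectionsModuleOfLE M hle
  { toFun := res M hle
    map_add' := res_add M hle
    map_smul' := fun a s => res_smul M hle a s }

@[simp] theorem resLinearMap_apply (s : Γ(M, V)) :
    letI := sectionsModuleOfLE M hle
    resLinearMap M hle s = res M hle s := rfl

end Bundled

section Main

variable {M : X.Modules}

/-- **(S2), bundled.** For `M` with local generators, `V` affine and `f ∈ Γ(X, V)`, the
restriction `Γ(M, V) → Γ(M, D(f))` is the localization at `f`. -/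
theorem isLocalizedModule_res_basicOpen (hM : HasLocalGenerators M) {V : X.Opens}
    (hV : IsAffineOpen V) (f : Γ(X, V)) :
    letI := sectionsModuleOfLE M (X.basicOpen_le f)
    IsLocalizedModule (Submonoid.powers f) (resLinearMap M (X.basicOpen_le f)) := by
  let _ := sectionsModuleOfLE M (X.basicOpen_le f)
  have : IsScalarTower Γ(X, V) Γ(X, X.basicOpen f) Γ(M, X.basicOpen f) :=
    .of_algebraMap_smul fun _ _ => rfl
  have : IsLocalization.Away f Γ(X, X.basicOpen f) := hV.isLocalization_basicOpen f
  refine isLocalizedModule_powers_of (R' := Γ(X, X.basicOpen f)) f _ ?_ ?_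
  · intro s hs
    exact exists_pow_smul_eq_zero hM hV f s (X.basicOpen_le f) le_rfl hs
  · intro t
    obtain ⟨n, s, hs⟩ := exists_res_eq_pow_smul hM hV f (X.basicOpen_le f) rfl t
    refine ⟨n, s, ?_⟩
    rw [resLinearMap_apply, hs]
    show _ = resO (X.basicOpen_le f) (f ^ n) • t
    rw [resO_pow]

/-- **(S1).** For `M` with local generators and `V` affine, `Γ(M, V)` is an invertible
`Γ(X, V)`-module. -/
theorem invertible_sections_of_hasLocalGenerators (hM : HasLocalGenerators M) {V : X.Opens}
    (hV : IsAffineOpen V) : Module.Invertible Γ(X, V) Γ(M, V) := by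
  obtain ⟨S, hS, hgen⟩ := exists_finset_basicOpen_gen hM hV
  apply H445.invertible_of_forall_exists_away
  intro p
  obtain ⟨h, hhS, hhp⟩ : ∃ h ∈ S, h ∉ p.asIdeal := by
    by_contra hcon
    push Not at hcon
    have : Ideal.span (S : Set Γ(X, V)) ≤ p.asIdeal := Ideal.span_le.mpr fun h hh => hcon h hh
    rw [hS] at this
    exact p.isPrime.ne_top (top_le_iff.mp this)
  refine ⟨h, hhp, ?_⟩
  obtain ⟨g, hg⟩ := hgen h hhS
  let _ := sectionsModuleOfLE M (X.basicOpen_le h)
  have : IsScalarTower Γ(X, V) Γ(X, X.basicOpen h) Γ(M, X.basicOpen h) :=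
    .of_algebraMap_smul fun _ _ => rfl
  have : IsLocalization.Away h Γ(X, X.basicOpen h) := hV.isLocalization_basicOpen h
  refine nonempty_away_equiv_of_gen (R' := Γ(X, X.basicOpen h)) h
    (resLinearMap M (X.basicOpen_le h)) ?_ ?_ g ?_
  · intro s hs
    exact exists_pow_smul_eq_zero hM hV h s (X.basicOpen_le h) le_rfl hs
  · intro t
    obtain ⟨n, s, hs⟩ := exists_res_eq_pow_smul hM hV h (X.basicOpen_le h) rfl t
    refine ⟨n, s, ?_⟩
    rw [resLinearMap_apply, hs]
    show _ = resO (X.basicOpen_le h) (h ^ n) • t
    rw [resO_pow]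
  · have := hg (X.basicOpen h) le_rfl
    simpa using this

/-- **(S1)** for the Prelude's `IsInvertible`. -/
theorem invertible_sections_of_isInvertible (hM : Scheme.Modules.IsInvertible M) {V : X.Opens}
    (hV : IsAffineOpen V) : Module.Invertible Γ(X, V) Γ(M, V) :=
  invertible_sections_of_hasLocalGenerators (hasLocalGenerators_of_isInvertible hM) hV

end Main

end

end Fermat.Agent.S25.H626
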