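/-
S25, block DICT (helper626): geometric inputs for `Stmt.DictSections` —
restriction to a basic open of an affine open is a base change (for invertible modules).
-/
import Mathlib
import Fermat.Agent.S25.H505.SemilinearBC
import Fermat.Agent.S25.H626.SecInv
import Fermat.Agent.S25.H626.DictSecAlg

set_option autoImplicit false
set_option linter.style.haveILetI false

universe u

open CategoryTheory AlgebraicGeometry TopologicalSpace Opposite

namespace Fermat.Agent.S25.H626

noncomputable section

variable {X : Scheme.{u}} {M : X.Modules}

/-- Restriction of sections of a module with local generators from an affine open to a basic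
open is a base change (in the instance-free sense of `H505.IsBC`). -/
theorem isBC_res_basicOpen (hM : HasLocalGenerators M) {V : X.Opens} (hV : IsAffineOpen V)
    (f : Γ(X, V)) {V' : X.Opens} (hle : V' ≤ V) (heq : V' = X.basicOpen f) :
    H505.IsBC (resORingHom hle) (resAddHom M hle) := by
  subst heq
  refine isBC_of_loc (resORingHom (X.basicOpen_le f)) f (hV.isLocalization_basicOpen f)
    (resAddHom M (X.basicOpen_le f)) (fun a n => res_smul M _ a n) ?_ ?_
  · intro s hs
    exact exists_pow_smul_eq_zero hM hV f s (X.basicOpen_le f) le_rfl hs
  · intro t
    exact exists_res_eq_pow_smul hM hV f (X.basicOpen_le f) rfl t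

end

end Fermat.Agent.S25.H626
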