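/-
S25, block DICT (helper626): `Stmt.DictSections Ch` — every rigidified line bundle on `C_A`
has a (rigidifiable) gluing datum of sections.
-/
import Fermat.Agent.S25.DefsDict
import Fermat.Agent.S25.H205.ChartRing
import Fermat.Agent.S25.H566.DictUnit
import Fermat.Agent.S25.H505.SectionBC
import Fermat.Agent.S25.H505.DictBC
import Fermat.Agent.S25.H505.InvertibleQCoh
import Fermat.Agent.S25.H971.GlueLift
import Fermat.Agent.S25.H626.DictSecGeom

set_option autoImplicit false
set_option linter.style.haveILetI false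

universe u

open CategoryTheory CategoryTheory.Limits AlgebraicGeometry AlgebraicGeometry.RelPicard
  NeronModelInfra GoodReductionJacobian
open scoped TensorProduct

namespace Fermat.Agent.S25.H626

noncomputable section

variable {k : Type u} [Field k] {C : Scheme.{u}} {c : C ⟶ Spec (CommRingCat.of k)}
  {ε : SchemeHomOver (𝟙 (Spec (CommRingCat.of k))) c}

/-! ### Sections over a chart, as a module over `A ⊗[k] B` -/

section ChartSec

variable {A : Type u} [CommRing A] [Algebra k A] {B : Type u} [CommRing B] [Algebra k B]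
  {U : C.Opens}

/-- Sections of `L` over the preimage of the chart `U`; a type synonym which remembers the
identification of the ring of functions of the chart with `B`. -/
def ChartSec (_hU : IsAffineOpen U) (i : Γ(C, U) ≃+* B)
    (_hi : ∀ a : k, i (sectionsStr c U a) = algebraMap k B a)
    (L : (pullback c (specStr k A)).Modules) : Type u :=
  Γ(L, preimageOpen (c := c) A U)

variable (hU : IsAffineOpen U) (i : Γ(C, U) ≃+* B)
  (hi : ∀ a : k, i (sectionsStr c U a) = algebraMap k B a)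
  (L : (pullback c (specStr k A)).Modules)

instance : AddCommGroup (ChartSec hU i hi L) :=
  inferInstanceAs (AddCommGroup Γ(L, preimageOpen (c := c) A U))

instance : Module (A ⊗[k] B) (ChartSec hU i hi L) :=
  Module.compHom Γ(L, preimageOpen (c := c) A U) (H205.chartRingEquiv c A hU i hi).toRingHom

instance chartSecGeomModule :
    Module Γ(pullback c (specStr k A), preimageOpen (c := c) A U) (ChartSec hU i hi L) :=
  inferInstanceAs (Module Γ(pullback c (specStr k A), preimageOpen (c := c) A U)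
    Γ(L, preimageOpen (c := c) A U))

/-- the tautological identification -/
def chartSecEquiv : Γ(L, preimageOpen (c := c) A U) ≃+ ChartSec hU i hi L := AddEquiv.refl _

theorem chartSecEquiv_smul (r : A ⊗[k] B) (s : Γ(L, preimageOpen (c := c) A U)) :
    r • chartSecEquiv hU i hi L s =
      chartSecEquiv hU i hi L (H205.chartRingEquiv c A hU i hi r • s) := rfl

theorem isSectionsIso_chartSecEquiv : IsSectionsIso A L U i (chartSecEquiv hU i hi L) := by
  refine ⟨fun a s => ?_, fun f s => ?_⟩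
  · rw [chartSecEquiv_smul, H205.chartRingEquiv_tmul_one]
  · rw [chartSecEquiv_smul, H205.chartRingEquiv_one_tmul, RingEquiv.symm_apply_apply]

theorem isSL_chartSecEquiv :
    H505.IsSL (H205.chartRingEquiv c A hU i hi).symm.toRingHom
      (chartSecEquiv hU i hi L).toAddMonoidHom := by
  intro r s
  change chartSecEquiv hU i hi L (r • s) =
    (H205.chartRingEquiv c A hU i hi).symm r • chartSecEquiv hU i hi L s
  rw [chartSecEquiv_smul, RingEquiv.apply_symm_apply]

theorem invertible_chartSec (hL : Scheme.Modules.IsInvertible L) :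
    Module.Invertible (A ⊗[k] B) (ChartSec hU i hi L) := by
  haveI : Module.Invertible Γ(pullback c (specStr k A), preimageOpen (c := c) A U)
      (ChartSec hU i hi L) :=
    invertible_sections_of_isInvertible hL (H205.isAffineOpen_preimageOpen c A hU)
  exact invertible_of_ringEquiv (H205.chartRingEquiv c A hU i hi) (fun _ _ => rfl)

end ChartSec

/-! ### Restriction between charts -/

section ChartRes

variable {A : Type u} [CommRing A] [Algebra k A]
  {B B' : Type u} [CommRing B] [Algebra k B] [CommRing B'] [Algebra k B'] [Algebra B B']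
  [IsScalarTower k B B'] {U U' : C.Opens} (hU : IsAffineOpen U) (hU' : IsAffineOpen U')
  (h : U' ≤ U)
  (i : Γ(C, U) ≃+* B) (hi : ∀ a : k, i (sectionsStr c U a) = algebraMap k B a)
  (i' : Γ(C, U') ≃+* B') (hi' : ∀ a : k, i' (sectionsStr c U' a) = algebraMap k B' a)
  (hii' : ∀ f : Γ(C, U), i' (resRing h f) = algebraMap B B' (i f))
  (L : (pullback c (specStr k A)).Modules)

/-- restriction of sections from the chart `U` to the smaller chart `U'`, additive -/
def chartRes : ChartSec hU i hi L →+ ChartSec hU' i' hi' L :=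
  resMod L (H205.preimageOpen_mono c A h)

omit [Algebra B B'] [IsScalarTower k B B'] in
theorem chartRes_apply (s : Γ(L, preimageOpen (c := c) A U)) :
    chartRes hU hU' h i hi i' hi' L (chartSecEquiv hU i hi L s) =
      chartSecEquiv hU' i' hi' L (resMod L (H205.preimageOpen_mono c A h) s) := rfl

include hii' in
theorem chartRes_smul (r : A ⊗[k] B) (s : ChartSec hU i hi L) :
    chartRes hU hU' h i hi i' hi' L (r • s) =
      (algebraMap (A ⊗[k] B) (A ⊗[k] B') r) • chartRes hU hU' h i hi i' hi' L s := by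
  have h1 : chartRes hU hU' h i hi i' hi' L (r • s) =
      resRing (H205.preimageOpen_mono c A h) (H205.chartRingEquiv c A hU i hi r) •
        chartRes hU hU' h i hi i' hi' L s :=
    Scheme.Modules.map_smul L (homOfLE (H205.preimageOpen_mono c A h))
      (H205.chartRingEquiv c A hU i hi r) s
  rw [h1, H205.resRing_chartRingEquiv c A hU hU' h i hi i' hi' hii']
  rfl

include hii' in
/-- If the smaller chart is a basic open of the larger one, restriction is a base change. -/
theorem isBC_chartRes (hL : Scheme.Modules.IsInvertible L) (x : B)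
    (hx : U' = C.basicOpen (i.symm x)) :
    H505.IsBC (algebraMap (A ⊗[k] B) (A ⊗[k] B')) (chartRes hU hU' h i hi i' hi' L) := by
  have heq : preimageOpen (c := c) A U' =
      (pullback c (specStr k A)).basicOpen (curveToSections (c := c) A U (i.symm x)) := by
    rw [preimageOpen, hx, Scheme.preimage_basicOpen]
    rfl
  have hgeo := isBC_res_basicOpen (M := L) (hasLocalGenerators_of_isInvertible hL)
    (H205.isAffineOpen_preimageOpen c A hU) (curveToSections (c := c) A U (i.symm x))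
    (H205.preimageOpen_mono c A h) heq
  refine H505.IsBC.of_square (α := (H205.chartRingEquiv c A hU i hi).symm.toRingHom)
    (β := (H205.chartRingEquiv c A hU' i' hi').symm.toRingHom)
    (a := (chartSecEquiv hU i hi L).toAddMonoidHom)
    (b := (chartSecEquiv hU' i' hi' L).toAddMonoidHom) hgeo
    (fun r s => chartRes_smul hU hU' h i hi i' hi' hii' L r s)
    (isSL_chartSecEquiv hU i hi L) (isSL_chartSecEquiv hU' i' hi' L)
    (H205.chartRingEquiv c A hU i hi).symm.bijective
    (H205.chartRingEquiv c A hU' i' hi').symm.bijective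
    (chartSecEquiv hU i hi L).bijective (chartSecEquiv hU' i' hi' L).bijective ?_ ?_
  · intro r
    obtain ⟨z, rfl⟩ := (H205.chartRingEquiv c A hU i hi).surjective r
    change algebraMap (A ⊗[k] B) (A ⊗[k] B') ((H205.chartRingEquiv c A hU i hi).symm _) =
      (H205.chartRingEquiv c A hU' i' hi').symm
        (resRing (H205.preimageOpen_mono c A h) (H205.chartRingEquiv c A hU i hi z))
    rw [RingEquiv.symm_apply_apply, H205.resRing_chartRingEquiv c A hU hU' h i hi i' hi' hii',
      RingEquiv.symm_apply_apply]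
    rfl
  · intro n
    rfl

end ChartRes

/-! ### Rigidification -/

section Rig

variable {A : Type u} [CommRing A] [Algebra k A] {B : Type u} [CommRing B] [Algebra k B]
  {U : C.Opens} (hU : IsAffineOpen U) (i : Γ(C, U) ≃+* B)
  (hi : ∀ a : k, i (sectionsStr c U a) = algebraMap k B a)
  (hε : ε.1 ⁻¹ᵁ U = ⊤) (e : B →ₐ[k] k) (he : ∀ f : Γ(C, U), e (i f) = evalAt c ε U hε f)
  (L : (pullback c (specStr k A)).Modules)
  (rig : (Scheme.Modules.pullback (rigSection c (specStr k A) ε)).obj L ≅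
    unitMod (Spec (CommRingCat.of A)))

/-- evaluation of a trivialised bundle on `Spec A`: global sections to `A` -/
def rigMapGeo :
    Γ((Scheme.Modules.pullback (rigSection c (specStr k A) ε)).obj L, ⊤) →+ A where
  toFun t := (Scheme.ΓSpecIso (CommRingCat.of A)).hom.hom
    (ofUnit (Spec (CommRingCat.of A)) ⊤ (rig.hom.app ⊤ t))
  map_zero' := by
    rw [map_zero]
    exact map_zero (Scheme.ΓSpecIso (CommRingCat.of A)).hom.hom
  map_add' x y := by
    rw [map_add]
    exact map_add (Scheme.ΓSpecIso (CommRingCat.of A)).hom.hom _ _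

theorem rigMapGeo_apply
    (t : Γ((Scheme.Modules.pullback (rigSection c (specStr k A) ε)).obj L, ⊤)) :
    rigMapGeo L rig t = (Scheme.ΓSpecIso (CommRingCat.of A)).hom.hom
      (ofUnit (Spec (CommRingCat.of A)) ⊤ (rig.hom.app ⊤ t)) := rfl

theorem rigMapGeo_smul (r : Γ(Spec (CommRingCat.of A), ⊤))
    (t : Γ((Scheme.Modules.pullback (rigSection c (specStr k A) ε)).obj L, ⊤)) :
    rigMapGeo L rig (r • t) =
      (Scheme.ΓSpecIso (CommRingCat.of A)).hom.hom r * rigMapGeo L rig t := by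
  have h1 : rig.hom.app ⊤ (r • t) = r • rig.hom.app ⊤ t :=
    Scheme.Modules.Hom.app_smul rig.hom r t
  rw [rigMapGeo_apply, rigMapGeo_apply, h1]
  exact map_mul (Scheme.ΓSpecIso (CommRingCat.of A)).hom.hom r _

theorem rigMapGeo_bijective : Function.Bijective (rigMapGeo L rig) := by
  have h1 : Function.Bijective ((Scheme.ΓSpecIso (CommRingCat.of A)).hom.hom :
      Γ(Spec (CommRingCat.of A), ⊤) → A) :=
    ConcreteCategory.bijective_of_isIso (Scheme.ΓSpecIso (CommRingCat.of A)).hom
  have h2 : Function.Bijective (fun t : Γ((Scheme.Modules.pullback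
      (rigSection c (specStr k A) ε)).obj L, ⊤) =>
      ofUnit (Spec (CommRingCat.of A)) ⊤ (rig.hom.app ⊤ t)) := by
    refine ⟨fun x y hxy => ?_, fun a => ⟨rig.inv.app ⊤ (toUnit _ ⊤ a), ?_⟩⟩
    · have h3 : rig.hom.app ⊤ x = rig.hom.app ⊤ y := hxy
      have := congrArg (rig.inv.app ⊤) h3
      rwa [app_inv_hom_apply, app_inv_hom_apply] at this
    · change ofUnit _ ⊤ (rig.hom.app ⊤ (rig.inv.app ⊤ (toUnit _ ⊤ a))) = a
      rw [app_hom_inv_apply]
      rfl
  exact h1.comp h2

/-- the rigidification map `Γ(L, chart) → A` -/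
def rigMap : ChartSec hU i hi L →+ A :=
  (rigMapGeo L rig).comp
    ((H505.secMap (rigSection c (specStr k A) ε) L
      (H205.top_le_rigSection_preimage c A ε hε)).hom.comp
      (chartSecEquiv hU i hi L).symm.toAddMonoidHom)

theorem rigMap_apply (s : Γ(L, preimageOpen (c := c) A U)) :
    rigMap hU i hi hε L rig (chartSecEquiv hU i hi L s) =
      rigMapGeo L rig (H505.secMap (rigSection c (specStr k A) ε) L
        (H205.top_le_rigSection_preimage c A ε hε) s) := rfl

include he in
theorem rigMap_smul (r : A ⊗[k] B) (s : ChartSec hU i hi L) :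
    rigMap hU i hi hε L rig (r • s) = epsHom e A r * rigMap hU i hi hε L rig s := by
  obtain ⟨s, rfl⟩ := (chartSecEquiv hU i hi L).surjective s
  rw [chartSecEquiv_smul, rigMap_apply, rigMap_apply, H505.secMap_smul, rigMapGeo_smul,
    ← H205.rigRing_chartRingEquiv c A ε hε hU i hi e he r]
  rfl

include he in
/-- **Rigidification = base change along `epsHom`.** -/
theorem isBC_rigMap (hL : Scheme.Modules.IsInvertible L) :
    H505.IsBC (epsHom e A).toRingHom (rigMap hU i hi hε L rig) := by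
  haveI : L.IsQuasicoherent := H505.isQuasicoherent_of_isInvertible L hL
  have hgeo := H505.secMap_isBC (rigSection c (specStr k A) ε) L
    (H205.isAffineOpen_preimageOpen c A hU) (isAffineOpen_top (Spec (CommRingCat.of A)))
    (H205.top_le_rigSection_preimage c A ε hε)
  refine H505.IsBC.of_square (α := (H205.chartRingEquiv c A hU i hi).symm.toRingHom)
    (β := (Scheme.ΓSpecIso (CommRingCat.of A)).hom.hom)
    (a := (chartSecEquiv hU i hi L).toAddMonoidHom)
    (b := rigMapGeo L rig) hgeo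
    (fun r s => rigMap_smul hU i hi hε e he L rig r s)
    (isSL_chartSecEquiv hU i hi L) (fun r t => rigMapGeo_smul L rig r t)
    (H205.chartRingEquiv c A hU i hi).symm.bijective
    (ConcreteCategory.bijective_of_isIso (Scheme.ΓSpecIso (CommRingCat.of A)).hom)
    (chartSecEquiv hU i hi L).bijective (rigMapGeo_bijective L rig) ?_ ?_
  · intro r
    obtain ⟨z, rfl⟩ := (H205.chartRingEquiv c A hU i hi).surjective r
    change epsHom e A ((H205.chartRingEquiv c A hU i hi).symm _) = _
    rw [RingEquiv.symm_apply_apply, ← H205.rigRing_chartRingEquiv c A ε hε hU i hi e he z]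
    rfl
  · intro n
    rfl

end Rig

/-! ### The gluing datum of sections -/

section Main

variable (Ch : ChartOf c ε) (A : Type u) [CommRing A] [Algebra k A]
  (L : (pullback c (specStr k A)).Modules)

/-- sections over the chart `U₀` -/
abbrev Sec₀ : Type u := ChartSec (A := A) Ch.isAffine₀ Ch.i₀ Ch.i₀_str L

/-- sections over the chart `U₁` -/
abbrev Sec₁ : Type u := ChartSec (A := A) Ch.isAffine₁ Ch.i₁ Ch.i₁_str L

/-- sections over the chart `U₀ ⊓ U₁` -/
abbrev Sec₀₁ : Type u :=
  ChartSec (A := A) (H566.chart_isAffine₀₁ Ch) Ch.i₀₁ (H566.chart_i₀₁_str Ch) L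

/-- restriction `Γ(L, V₀) → Γ(L, V₀₁)` -/
abbrev secRes₀ : Sec₀ Ch A L →+ Sec₀₁ Ch A L :=
  chartRes (A := A) Ch.isAffine₀ (H566.chart_isAffine₀₁ Ch) inf_le_left Ch.i₀ Ch.i₀_str Ch.i₀₁
    (H566.chart_i₀₁_str Ch) L

/-- restriction `Γ(L, V₁) → Γ(L, V₀₁)` -/
abbrev secRes₁ : Sec₁ Ch A L →+ Sec₀₁ Ch A L :=
  chartRes (A := A) Ch.isAffine₁ (H566.chart_isAffine₀₁ Ch) inf_le_right Ch.i₁ Ch.i₁_str Ch.i₀₁
    (H566.chart_i₀₁_str Ch) L

/-- **DICT-SEC.**  Every rigidified line bundle on `C_A` has a gluing datum of sections, and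
it is rigidifiable. -/
theorem dictSections : Stmt.DictSections Ch := by
  intro A _ _ M
  letI mL : Module (A ⊗[k] Ch.B₀) (Sec₀₁ Ch A M.L) :=
    Module.compHom (Sec₀₁ Ch A M.L) (algebraMap (A ⊗[k] Ch.B₀) (A ⊗[k] Ch.B₀₁))
  letI mR : Module (A ⊗[k] Ch.B₁) (Sec₀₁ Ch A M.L) :=
    Module.compHom (Sec₀₁ Ch A M.L) (algebraMap (A ⊗[k] Ch.B₁) (A ⊗[k] Ch.B₀₁))
  haveI tL : IsScalarTower (A ⊗[k] Ch.B₀) (A ⊗[k] Ch.B₀₁) (Sec₀₁ Ch A M.L) :=
    ⟨fun r r' n => by
      change (r • r') • n = (algebraMap (A ⊗[k] Ch.B₀) (A ⊗[k] Ch.B₀₁) r) • (r' • n)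
      rw [Algebra.smul_def, mul_smul]⟩
  haveI tR : IsScalarTower (A ⊗[k] Ch.B₁) (A ⊗[k] Ch.B₀₁) (Sec₀₁ Ch A M.L) :=
    ⟨fun r r' n => by
      change (r • r') • n = (algebraMap (A ⊗[k] Ch.B₁) (A ⊗[k] Ch.B₀₁) r) • (r' • n)
      rw [Algebra.smul_def, mul_smul]⟩
  let r₀ : Sec₀ Ch A M.L →ₗ[A ⊗[k] Ch.B₀] Sec₀₁ Ch A M.L :=
    { toFun := secRes₀ Ch A M.L
      map_add' := (secRes₀ Ch A M.L).map_add
      map_smul' := fun r s =>
        chartRes_smul (A := A) Ch.isAffine₀ (H566.chart_isAffine₀₁ Ch) inf_le_left Ch.i₀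
          Ch.i₀_str Ch.i₀₁ (H566.chart_i₀₁_str Ch) Ch.i₀₁_res₀ M.L r s }
  let r₁ : Sec₁ Ch A M.L →ₗ[A ⊗[k] Ch.B₁] Sec₀₁ Ch A M.L :=
    { toFun := secRes₁ Ch A M.L
      map_add' := (secRes₁ Ch A M.L).map_add
      map_smul' := fun r s =>
        chartRes_smul (A := A) Ch.isAffine₁ (H566.chart_isAffine₀₁ Ch) inf_le_right Ch.i₁
          Ch.i₁_str Ch.i₀₁ (H566.chart_i₀₁_str Ch) Ch.i₀₁_res₁ M.L r s }
  have h₀ : IsBaseChange (A ⊗[k] Ch.B₀₁) r₀ :=
    H505.IsBC.isBaseChange r₀
      (isBC_chartRes (A := A) Ch.isAffine₀ (H566.chart_isAffine₀₁ Ch) inf_le_left Ch.i₀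
        Ch.i₀_str Ch.i₀₁ (H566.chart_i₀₁_str Ch) Ch.i₀₁_res₀ M.L M.isInvertible Ch.x Ch.inf_eq₀)
  have h₁ : IsBaseChange (A ⊗[k] Ch.B₀₁) r₁ :=
    H505.IsBC.isBaseChange r₁
      (isBC_chartRes (A := A) Ch.isAffine₁ (H566.chart_isAffine₀₁ Ch) inf_le_right Ch.i₁
        Ch.i₁_str Ch.i₀₁ (H566.chart_i₀₁_str Ch) Ch.i₀₁_res₁ M.L M.isInvertible Ch.y Ch.inf_eq₁)
  have i₀ : Module.Invertible (A ⊗[k] Ch.B₀) (Sec₀ Ch A M.L) :=
    invertible_chartSec _ _ _ M.L M.isInvertible
  have i₁ : Module.Invertible (A ⊗[k] Ch.B₁) (Sec₁ Ch A M.L) :=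
    invertible_chartSec _ _ _ M.L M.isInvertible
  refine ⟨H971.glueDatumOfModules A (Sec₀ Ch A M.L) (Sec₁ Ch A M.L) (Sec₀₁ Ch A M.L)
    r₀ r₁ h₀ h₁ i₀ i₁, ?_, ?_⟩
  · refine ⟨chartSecEquiv _ _ _ M.L, chartSecEquiv _ _ _ M.L, chartSecEquiv _ _ _ M.L,
      isSectionsIso_chartSecEquiv _ _ _ M.L, isSectionsIso_chartSecEquiv _ _ _ M.L,
      isSectionsIso_chartSecEquiv _ _ _ M.L, fun s => rfl, fun s => rfl⟩
  · obtain ⟨rig⟩ := M.rigidified
    let b : Sec₁ Ch A M.L →ₛₗ[(epsHom Ch.e A).toRingHom] A :=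
      { toFun := rigMap (A := A) Ch.isAffine₁ Ch.i₁ Ch.i₁_str Ch.eps_mem M.L rig
        map_add' := (rigMap (A := A) Ch.isAffine₁ Ch.i₁ Ch.i₁_str Ch.eps_mem M.L rig).map_add
        map_smul' := fun r s =>
          rigMap_smul (A := A) Ch.isAffine₁ Ch.i₁ Ch.i₁_str Ch.eps_mem Ch.e Ch.e_eq M.L rig r s }
    refine ⟨b, H505.isSemilinearBaseChange_of_isBC _ b ?_⟩
    exact isBC_rigMap (A := A) Ch.isAffine₁ Ch.i₁ Ch.i₁_str Ch.eps_mem Ch.e Ch.e_eq M.L rig
      M.isInvertible

end Main

end

end Fermat.Agent.S25.H626
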